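import Mathlib
import Fermat.Agent.S41.Spec.HK

/-!
# Row S41, block PD (Poincaré duality mod `p`) — interface proposal (helper405)

Blueprint: `coord/S41-PD-helper405.md` (branch `helper405`).

The form on cuspidal classes is defined INTRINSICALLY:
`β_n(φ, ψ) = ∑_{cusps} b(γ_c⁺)`, where `b` is a *Heisenberg primitive* of `(φ, ψ)`
(`b(γγ') = b(γ) + b(γ') + φ(γ) ψ(γ')`, `b = 0` on torsion) and `γ_c⁺` runs through the positive
generators of the cusp stabilisers.  Adjointness of `(r₁, t₁)` and of `(r₂, t₂)` is then ONE abstract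
cochain computation (`ProjectionFormulaStatement`); the Manin model of `Γ₀(n) \ SL₂(ℤ)` is only used
for existence (`ExistsPrimStatement`), independence (`IndepStatement`) and nondegeneracy
(`NondegStatement`).

Each `def … : Prop` below is a leaf: prove `theorem <name> : <Statement>` in
`Fermat/Agent/S41/H<seat>/…`.
-/

set_option autoImplicit false

namespace Fermat.Agent.S41.H405

open CongruenceSubgroup Matrix.SpecialLinearGroup ModularGroup
open Fermat.Agent.S41.Spec
open scoped MatrixGroups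

universe u

/-! ## Definitions -/

section Defs

variable {F : Type*} [CommRing F]

/-- A **Heisenberg primitive** of a pair of additive characters `(φ, ψ)` of a group `Γ`:
`b (g h) = b g + b h + φ g * ψ h`, and `b` vanishes on the elements of finite order.
(Equivalently `g ↦ [[1, φ g, b g], [0, 1, ψ g], [0, 0, 1]]` is a homomorphism to the unitriangular
group, trivial on torsion.) -/
def IsHeisPrim {Γ : Type*} [Group Γ] (φ ψ : Additive Γ →+ F) (b : Γ → F) : Prop :=
  (∀ g h : Γ, b (g * h) = b g + b h + φ (Additive.ofMul g) * ψ (Additive.ofMul h)) ∧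
    ∀ g : Γ, IsOfFinOrder g → b g = 0

/-- Positive parabolic elements of `SL(2, ℤ)`: `± h⁻¹ T ^ k h` with `k > 0`. -/
def IsPosParab (g : SL(2, ℤ)) : Prop :=
  ∃ (h : SL(2, ℤ)) (k : ℕ), 0 < k ∧ (g = h⁻¹ * T ^ k * h ∨ g = -(h⁻¹ * T ^ k * h))

/-- `g'` is conjugate to `± g` inside `Γ` (embedded in `SL(2, ℤ)` by `j`). -/
def PMConj {Γ : Type*} [Group Γ] (j : Γ →* SL(2, ℤ)) (g g' : Γ) : Prop :=
  ∃ h : Γ, j g' = j (h * g * h⁻¹) ∨ j g' = -j (h * g * h⁻¹)

/-- Primitive positive parabolic elements of a group `Γ` embedded in `SL(2, ℤ)` by `j`. -/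
def IsPrimParab {Γ : Type*} [Group Γ] (j : Γ →* SL(2, ℤ)) (η : Γ) : Prop :=
  IsPosParab (j η) ∧
    ∀ (η' : Γ) (m : ℕ), IsPosParab (j η') → (j η = j η' ^ m ∨ j η = -(j η' ^ m)) → m = 1

/-- A **cusp system** of `Γ`: a family of representatives of the classes of primitive positive
parabolic elements of `Γ` modulo conjugation and sign. -/
def IsCuspSystem {Γ : Type*} [Group Γ] (j : Γ →* SL(2, ℤ)) {ι : Type*} (η : ι → Γ) : Prop :=
  (∀ i, IsPrimParab j (η i)) ∧ ∀ g : Γ, IsPrimParab j g → ∃! i, PMConj j (η i) g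

/-- Functions on `Γ` that are constant on the `±`-conjugacy classes of positive parabolic
elements. -/
def IsCuspClassFn {Γ : Type*} [Group Γ] (j : Γ →* SL(2, ℤ)) (c : Γ → F) : Prop :=
  ∀ g g' : Γ, IsPosParab (j g) → PMConj j g g' → c g' = c g

/-- The model representative of the cusp `ω` (a `T`-orbit on `SL(2, ℤ) ⧸ Γ`):
`g⁻¹ T ^ e g`, `g Γ ∈ ω`, `e` the width. -/
noncomputable def modelCusp (Γ : Subgroup SL(2, ℤ))
    (ω : Quotient (MulAction.orbitRel (Subgroup.zpowers T) (SL(2, ℤ) ⧸ Γ))) : Γ :=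
  ⟨ω.out.out⁻¹ * T ^ Function.minimalPeriod (T • ·) ω.out * ω.out.out,
    QuotientGroup.out_conj_pow_minimalPeriod_mem Γ T ω.out⟩

/-- The **cusp sum** of a function on `Γ`. -/
noncomputable def cuspSum (Γ : Subgroup SL(2, ℤ)) (c : Γ → F) : F :=
  ∑ᶠ ω : Quotient (MulAction.orbitRel (Subgroup.zpowers T) (SL(2, ℤ) ⧸ Γ)), c (modelCusp Γ ω)

/-- The element `t⁻¹ γ ^ e t ∈ H` attached to an orbit `O` of `γ` on `G ⧸ H`
(the shape of Mathlib's cycle formula for the transfer). -/
noncomputable def cycleElt {G : Type*} [Group G] (H : Subgroup G) (γ : G)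
    (O : Quotient (MulAction.orbitRel (Subgroup.zpowers γ) (G ⧸ H))) : H :=
  ⟨O.out.out⁻¹ * γ ^ Function.minimalPeriod (γ • ·) O.out * O.out.out,
    QuotientGroup.out_conj_pow_minimalPeriod_mem H γ O.out⟩

/-- The additive form of Mathlib's transfer `Hom(H, F) → Hom(G, F)`. -/
noncomputable def addTransfer {G : Type*} [Group G] (H : Subgroup G) [H.FiniteIndex]
    (y : Additive H →+ F) : Additive G →+ F :=
  MonoidHom.toAdditiveLeft (MonoidHom.transfer (AddMonoidHom.toMultiplicativeRight y))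

end Defs

/-! ## Leaves -/

/-- **PF (projection formula, abstract; Mathlib only).**  `H ≤ G` of finite index, `χ` a character
of `G`, `y` a character of `H`, `bH` with `bH (g h) = bH g + bH h + χ g * y h` on `H`.  Then there is
`bG` on `G` with `bG (g h) = bG g + bG h + χ g * (transfer y) h` which on every `γ` with `χ γ = 0`,
such that `y` kills all `t⁻¹ γ ^ k t ∈ H`, is given by the cycle formula. -/
def ProjectionFormulaStatement : Prop :=
  ∀ (G : Type u) [Group G] (H : Subgroup G) [H.FiniteIndex] (F : Type u) [CommRing F]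
    (χ : Additive G →+ F) (y : Additive H →+ F) (bH : H → F),
    (∀ g h : H, bH (g * h) = bH g + bH h + χ (Additive.ofMul (g : G)) * y (Additive.ofMul h)) →
    ∃ bG : G → F,
      (∀ g h : G, bG (g * h) =
        bG g + bG h + χ (Additive.ofMul g) * addTransfer H y (Additive.ofMul h)) ∧
      ∀ γ : G, χ (Additive.ofMul γ) = 0 →
        (∀ (k : ℕ) (t : G) (hk : t⁻¹ * γ ^ k * t ∈ H), y (Additive.ofMul ⟨_, hk⟩) = 0) →
        bG γ = ∑ᶠ O : Quotient (MulAction.orbitRel (Subgroup.zpowers γ) (G ⧸ H)),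
          bH (cycleElt H γ O)

/-- **POS (positivity criterion).**  `g` is positive parabolic iff `tr² = 4`, `g ≠ ±1` and
`tr g * c ≤ 0 ≤ tr g * b`.  (S21/H585 `exists_conj_T_zpow` + the form `v ↦ det (v, g v)`.) -/
def PosParabCriterionStatement : Prop :=
  ∀ g : SL(2, ℤ), IsPosParab g ↔
    ((g : Matrix (Fin 2) (Fin 2) ℤ).trace ^ 2 = 4 ∧ g ≠ 1 ∧ g ≠ -1 ∧
      (g : Matrix (Fin 2) (Fin 2) ℤ).trace * g 1 0 ≤ 0 ∧
      0 ≤ (g : Matrix (Fin 2) (Fin 2) ℤ).trace * g 0 1)

/-- **CL (classification of parabolic classes).**  For `Γ ≤ SL(2, ℤ)` of finite index containing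
`-1`, the model family is a cusp system. -/
def ModelCuspSystemStatement : Prop :=
  ∀ (Γ : Subgroup SL(2, ℤ)) [Γ.FiniteIndex], (-1 : SL(2, ℤ)) ∈ Γ →
    IsCuspSystem Γ.subtype (modelCusp Γ)

/-- **CSS (sums over cusp systems).**  Two finite cusp systems give the same sum of a class
function. -/
def CuspSystemSumStatement : Prop :=
  ∀ (Γ : Type) [Group Γ] (j : Γ →* SL(2, ℤ)) (F : Type) [CommRing F] (ι ι' : Type) [Fintype ι]
    [Fintype ι'] (η : ι → Γ) (η' : ι' → Γ) (c : Γ → F),
    IsCuspSystem j η → IsCuspSystem j η' → IsCuspClassFn j c → ∑ i, c (η i) = ∑ i, c (η' i)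

/-- **CS2 (induced cusp system).**  `H ≤ G ≤ SL(2, ℤ)`, `H` of finite index in `G`, `-1 ∈ H`; if
`γ` is a cusp system of `G` then the cycle elements `t⁻¹ (γ i) ^ e t`, `(i, O)`, `O` an orbit of
`γ i` on `G ⧸ H`, form a cusp system of `H`. -/
def InducedCuspSystemStatement : Prop :=
  ∀ (G : Subgroup SL(2, ℤ)) (H : Subgroup ↥G) [H.FiniteIndex]
    (_ : ∃ z : H, (G.subtype.comp H.subtype) z = -1) (ι : Type) [Fintype ι] (γ : ι → G),
    IsCuspSystem G.subtype γ →
    IsCuspSystem (G.subtype.comp H.subtype)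
      (fun x : (Σ i : ι, Quotient (MulAction.orbitRel (Subgroup.zpowers (γ i)) (↥G ⧸ H))) =>
        cycleElt H (γ x.1) x.2)

/-- **EX (existence of Heisenberg primitives).**  Model: induced cocycles on `SL(2, ℤ)` with values
in functions on `SL(2, ℤ) ⧸ Γ₀(n)` and the presentation of `PSL(2, ℤ)` (S21/H585
`exists_hom_of_sq_cube`) applied to the wreath product with the unitriangular group. -/
def ExistsPrimStatement : Prop :=
  ∀ (p : ℕ) [Fact p.Prime], p ≠ 2 → ∀ (n : ℕ), 0 < n →
    ∀ φ ψ : Additive (Gamma0 n) →+ ZMod p, IsCuspidal φ → IsCuspidal ψ →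
      ∃ b : Gamma0 n → ZMod p, IsHeisPrim φ ψ b

/-- **IND (independence).**  The cusp sum of a character killing the torsion vanishes
("the product of the boundary loops is a product of commutators and elliptic elements"). -/
def IndepStatement : Prop :=
  ∀ (n : ℕ), 0 < n → ∀ (F : Type) [CommRing F] (χ : Additive (Gamma0 n) →+ F),
    (∀ γ : Gamma0 n, IsOfFinOrder γ → χ (Additive.ofMul γ) = 0) →
    cuspSum (Gamma0 n) (fun γ => χ (Additive.ofMul γ)) = 0

/-- **NONDEG (nondegeneracy).**  Manin model: explicit formula for the cusp sum in terms of the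
induced cocycles at `S` and `S T`, abstract nondegeneracy of the Manin form, and surjectivity of the
dictionary. -/
def NondegStatement : Prop :=
  ∀ (p : ℕ) [Fact p.Prime], p ≠ 2 → ∀ (n : ℕ), 0 < n →
    ∀ φ : Additive (Gamma0 n) →+ ZMod p, IsCuspidal φ → φ ≠ 0 →
      ∃ (ψ : Additive (Gamma0 n) →+ ZMod p) (b : Gamma0 n → ZMod p),
        IsCuspidal ψ ∧ IsHeisPrim φ ψ b ∧ cuspSum (Gamma0 n) b ≠ 0

/-! ## The block statement -/

/-- **PD**: a family of biadditive, skew, nondegenerate forms on the cuspidal classes mod `p`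
(`p` odd) for which the degeneracy maps are adjoint to the transfers. -/
def PDStatement : Prop :=
  ∀ (p : ℕ) [Fact p.Prime], p ≠ 2 →
    ∃ β : ∀ n : ℕ, (Additive (Gamma0 n) →+ ZMod p) → (Additive (Gamma0 n) →+ ZMod p) → ZMod p,
      (∀ n : ℕ, 0 < n →
        (∀ x x' y, IsCuspidal x → IsCuspidal x' → IsCuspidal y →
          β n (x + x') y = β n x y + β n x' y) ∧
        (∀ x y, IsCuspidal x → IsCuspidal y → β n x y = -β n y x) ∧
        (∀ x, IsCuspidal x → (∀ y, IsCuspidal y → β n x y = 0) → x = 0)) ∧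
      (∀ N q : ℕ, 0 < N → q.Prime → ¬ q ∣ N →
        ∀ (x : Additive (Gamma0 N) →+ ZMod p) (y : Additive (Gamma0 (N * q)) →+ ZMod p),
          IsCuspidal x → IsCuspidal y →
          β (N * q) (r₁ N q x) y = β N x (t₁ N q y) ∧
          β (N * q) (r₂ N q x) y = β N x (t₂ N q y))

end Fermat.Agent.S41.H405
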